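import Fermat.Agent.S55.Herbrand.Cyclic
import Mathlib.RepresentationTheory.Homological.GroupCohomology.FiniteCyclic

/-!
# Herbrand quotient and Mathlib's group cohomology of finite cyclic groups

For a finite cyclic group `G` generated by `g`, of order `n`, and `A : Rep k G`:

* `card_groupCohomology_even` : `Nat.card (Hⁱ(G, A)) = h0 (ρ g) n` for even `i > 0`;
* `card_groupCohomology_odd` : `Nat.card (Hⁱ(G, A)) = h1 (ρ g) n` for odd `i`;
* `herbrand_eq_card_div_card` : `herbrand (ρ g) n = |H²(G, A)| / |H¹(G, A)|`.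

(`Nat.card` of an infinite type is `0`, matching the junk value of `h0`, `h1`.)
-/

set_option autoImplicit false

namespace Fermat.Agent.S55.Herbrand

open CategoryTheory Rep Rep.FiniteCyclicGroup

universe u

section SumPowers

variable {G : Type*} [Group G] [Fintype G]

lemma sum_eq_sum_range_pow {M : Type*} [AddCommMonoid M] (g : G)
    (hg : ∀ x, x ∈ Subgroup.zpowers g) (f : G → M) :
    ∑ h : G, f h = ∑ i ∈ Finset.range (Nat.card G), f (g ^ i) := by
  classical
  have hord : orderOf g = Nat.card G := orderOf_eq_card_of_forall_mem_zpowers hg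
  rw [← hord]
  symm
  refine Finset.sum_bij (fun i _ => g ^ i) (fun _ _ => Finset.mem_univ _) ?_ ?_ (fun _ _ => rfl)
  · intro i hi j hj hij
    exact pow_injOn_Iio_orderOf (by simpa using hi) (by simpa using hj) hij
  · intro h _
    obtain ⟨i, hi, rfl⟩ :=
      Finset.mem_image.1 ((mem_zpowers_iff_mem_range_orderOf (x := g) (y := h)).1 (hg h))
    exact ⟨i, hi, rfl⟩

end SumPowers

variable {k G : Type u} [CommRing k] [CommGroup G] (A : Rep k G) (g : G)

/-- the action of `g` as an additive endomorphism. -/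
def repEnd : AddMonoid.End A.V := (A.ρ g).toAddMonoidHom

@[simp] lemma repEnd_apply (x : A.V) : repEnd A g x = A.ρ g x := rfl

lemma repEnd_pow_apply (i : ℕ) (x : A.V) : (repEnd A g ^ i) x = A.ρ (g ^ i) x := by
  induction i generalizing x with
  | zero => simp
  | succ i ih =>
    rw [pow_succ, pow_succ]
    change (repEnd A g ^ i) (repEnd A g x) = _
    rw [ih, repEnd_apply, map_mul]
    rfl

lemma delta_repEnd_apply (x : A.V) :
    delta (repEnd A g) x = (applyAsHom A g - 𝟙 A).hom.toLinearMap x := by
  simp [sub_hom, applyAsHom]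

lemma ker_delta_repEnd :
    AddMonoidHom.ker (delta (repEnd A g)) =
      (LinearMap.ker (applyAsHom A g - 𝟙 A).hom.toLinearMap).toAddSubgroup := by
  ext x
  rw [AddMonoidHom.mem_ker, delta_repEnd_apply]
  rfl

lemma range_delta_repEnd :
    AddMonoidHom.range (delta (repEnd A g)) =
      (LinearMap.range (applyAsHom A g - 𝟙 A).hom.toLinearMap).toAddSubgroup := by
  ext x
  constructor
  · rintro ⟨y, rfl⟩
    exact ⟨y, (delta_repEnd_apply A g y).symm⟩
  · rintro ⟨y, rfl⟩
    exact ⟨y, delta_repEnd_apply A g y⟩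

/-- cardinality of the target of a surjective linear map whose kernel is the preimage of a
submodule `R` under the inclusion of a submodule `K`. -/
lemma card_eq_relIndex_of_surjective {M H : Type*} [AddCommGroup M] [Module k M]
    [AddCommGroup H] [Module k H] (K R : Submodule k M) (π : K →ₗ[k] H)
    (hπ : Function.Surjective π) (hker : ∀ x : K, π x = 0 ↔ (x : M) ∈ R) :
    Nat.card H = R.toAddSubgroup.relIndex K.toAddSubgroup := by
  have e := (QuotientAddGroup.quotientKerEquivOfSurjective π.toAddMonoidHom hπ).toEquiv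
  rw [← Nat.card_congr e]
  change (AddMonoidHom.ker π.toAddMonoidHom).index = _
  rw [AddSubgroup.relIndex]
  congr 1
  ext x
  rw [AddMonoidHom.mem_ker, AddSubgroup.mem_addSubgroupOf]
  exact hker x

variable [Fintype G]

omit [Fintype G] in
lemma repEnd_pow_card [Finite G] : repEnd A g ^ Nat.card G = 1 := by
  ext x
  rw [repEnd_pow_apply, pow_card_eq_one', map_one]
  rfl

variable (hg : ∀ x, x ∈ Subgroup.zpowers g)
include hg

lemma normN_repEnd_apply (x : A.V) :
    normN (repEnd A g) (Nat.card G) x = A.norm.hom.toLinearMap x := by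
  rw [normN_apply]
  have : A.norm.hom.toLinearMap x = ∑ h : G, A.ρ h x := by
    simp [Rep.norm, Representation.norm]
  rw [this, sum_eq_sum_range_pow g hg]
  exact Finset.sum_congr rfl fun i _ => repEnd_pow_apply A g i x

lemma ker_normN_repEnd :
    AddMonoidHom.ker (normN (repEnd A g) (Nat.card G)) =
      (LinearMap.ker A.norm.hom.toLinearMap).toAddSubgroup := by
  ext x
  rw [AddMonoidHom.mem_ker, normN_repEnd_apply A g hg]
  rfl

lemma range_normN_repEnd :
    AddMonoidHom.range (normN (repEnd A g) (Nat.card G)) =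
      (LinearMap.range A.norm.hom.toLinearMap).toAddSubgroup := by
  ext x
  constructor
  · rintro ⟨y, rfl⟩
    exact ⟨y, (normN_repEnd_apply A g hg y).symm⟩
  · rintro ⟨y, rfl⟩
    exact ⟨y, normN_repEnd_apply A g hg y⟩

/-- **`|Hⁱ(G, A)| = [A^G : N A]`** for even `i > 0` and `G` finite cyclic. -/
theorem card_groupCohomology_even (i : ℕ) [NeZero i] (hi : Even i) :
    Nat.card (groupCohomology A i) = h0 (repEnd A g) (Nat.card G) := by
  rw [h0_eq_relIndex, ker_delta_repEnd A g, range_normN_repEnd A g hg]
  refine card_eq_relIndex_of_surjective _ _ (groupCohomologyπEven A g hg i hi).hom ?_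
    (groupCohomologyπEven_eq_zero_iff A g hg i hi)
  rw [← ModuleCat.epi_iff_surjective]
  refine @epi_comp _ _ _ _ _ _ (@IsIso.epi_of_iso _ _ _ _ _ (Iso.isIso_inv _)) _
    (@epi_comp _ _ _ _ _ _ ?_ _ (@IsIso.epi_of_iso _ _ _ _ _ (Iso.isIso_inv _)))
  infer_instance

/-- **`|Hⁱ(G, A)| = [ker N : (g - 1) A]`** for odd `i` and `G` finite cyclic. -/
theorem card_groupCohomology_odd (i : ℕ) (hi : Odd i) :
    Nat.card (groupCohomology A i) = h1 (repEnd A g) (Nat.card G) := by
  rw [h1_eq_relIndex, ker_normN_repEnd A g hg, range_delta_repEnd A g]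
  refine card_eq_relIndex_of_surjective _ _ (groupCohomologyπOdd A g hg i hi).hom ?_
    (groupCohomologyπOdd_eq_zero_iff A g hg i hi)
  rw [← ModuleCat.epi_iff_surjective]
  refine @epi_comp _ _ _ _ _ _ (@IsIso.epi_of_iso _ _ _ _ _ (Iso.isIso_inv _)) _
    (@epi_comp _ _ _ _ _ _ ?_ _ (@IsIso.epi_of_iso _ _ _ _ _ (Iso.isIso_inv _)))
  infer_instance

/-- The Herbrand quotient is `|H²| / |H¹|`. -/
theorem herbrand_eq_card_div_card :
    herbrand (repEnd A g) (Nat.card G) =
      (Nat.card (groupCohomology A 2) : ℚ) / (Nat.card (groupCohomology A 1) : ℚ) := by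
  rw [herbrand_eq_div, card_groupCohomology_even A g hg 2 (by decide),
    card_groupCohomology_odd A g hg 1 (by decide)]

/-- periodicity of the orders of cohomology groups of a finite cyclic group. -/
theorem card_groupCohomology_add_two (i : ℕ) [NeZero i] :
    Nat.card (groupCohomology A (i + 2)) = Nat.card (groupCohomology A i) := by
  rcases Nat.even_or_odd i with hi | hi
  · rw [card_groupCohomology_even A g hg i hi,
      card_groupCohomology_even A g hg (i + 2) (by simpa [Nat.even_add] using hi)]
  · rw [card_groupCohomology_odd A g hg i hi,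
      card_groupCohomology_odd A g hg (i + 2) (by
        rcases hi with ⟨m, rfl⟩; exact ⟨m + 1, by ring⟩)]

end Fermat.Agent.S55.Herbrand
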