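import Fermat.Agent.S55.Herbrand.Index

/-!
# Herbrand quotient, abstract form: short exact sequences, finite groups

Main results (all for additive commutative groups with endomorphisms `f, g`, `f ∘ g = g ∘ f = 0`):

* `hexagon_of_exact` : for a short exact sequence `0 → A → B → C → 0` compatible with `f, g`:
  `h_f(A) * h_f(C) * h_g(B) = h_g(A) * h_g(C) * h_f(B)` (an identity in `ℕ`);
* `isDefined_of_exact_left/right/mid` : two-out-of-three;
* `q_mul_of_exact` : `q B = q A * q C`;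
* `q_eq_one_of_finite` : the Herbrand quotient of a finite group is `1`.
-/

set_option autoImplicit false

namespace Fermat.Agent.S55.Herbrand

open AddSubgroup

variable {A B C : Type*} [AddCommGroup A] [AddCommGroup B] [AddCommGroup C]

/-- The Herbrand quotient of `(B, f, g)` is *defined* when `ker f / im g` and `ker g / im f`
are both finite. -/
def IsDefined (f g : B →+ B) : Prop := hIndex f g ≠ 0 ∧ hIndex g f ≠ 0

/-- The Herbrand quotient `|ker f / im g| / |ker g / im f|` (junk value `0` if undefined). -/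
noncomputable def q (f g : B →+ B) : ℚ := (hIndex f g : ℚ) / (hIndex g f : ℚ)

lemma IsDefined.symm {f g : B →+ B} (h : IsDefined f g) : IsDefined g f := ⟨h.2, h.1⟩

lemma IsDefined.q_ne_zero {f g : B →+ B} (h : IsDefined f g) : q f g ≠ 0 := by
  unfold q
  exact div_ne_zero (Nat.cast_ne_zero.2 h.1) (Nat.cast_ne_zero.2 h.2)

lemma q_swap (f g : B →+ B) : q g f = (q f g)⁻¹ := by
  unfold q
  rw [inv_div]

section Exact

variable {fA gA : A →+ A} {fB gB : B →+ B} {fC gC : C →+ C}
variable {i : A →+ B} {p : B →+ C}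

lemma hIndex_eq_hIndexSub (hi : Function.Injective i)
    (hif : ∀ a, i (fA a) = fB (i a)) (hig : ∀ a, i (gA a) = gB (i a)) :
    hIndex fA gA = hIndexSub fB gB i.range := by
  unfold hIndex hIndexSub
  rw [← relIndex_map_map_of_injective _ _ hi]
  have h1 : gA.range.map i = i.range.map gB := by
    ext x
    simp only [AddSubgroup.mem_map, AddMonoidHom.mem_range]
    constructor
    · rintro ⟨_, ⟨a, rfl⟩, rfl⟩
      exact ⟨i a, ⟨a, rfl⟩, (hig a).symm⟩
    · rintro ⟨_, ⟨a, rfl⟩, rfl⟩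
      exact ⟨gA a, ⟨a, rfl⟩, hig a⟩
  have h2 : fA.ker.map i = i.range ⊓ fB.ker := by
    ext x
    simp only [AddSubgroup.mem_map, AddSubgroup.mem_inf, AddMonoidHom.mem_range,
      AddMonoidHom.mem_ker]
    constructor
    · rintro ⟨a, ha, rfl⟩
      exact ⟨⟨a, rfl⟩, by rw [← hif, ha, map_zero]⟩
    · rintro ⟨⟨a, rfl⟩, hx⟩
      exact ⟨a, hi (by rw [hif, hx, map_zero]), rfl⟩
  rw [h1, h2]

lemma hIndex_eq_hIndexQuot (hp : Function.Surjective p) (hex : p.ker = i.range)
    (hpf : ∀ b, p (fB b) = fC (p b)) (hpg : ∀ b, p (gB b) = gC (p b)) :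
    hIndex fC gC = hIndexQuot fB gB i.range := by
  unfold hIndex hIndexQuot
  have h1 : gB.range ⊔ i.range = gC.range.comap p := by
    rw [← hex]
    ext x
    rw [AddSubgroup.mem_comap]
    constructor
    · intro hx
      obtain ⟨y, ⟨b, rfl⟩, z, hz, rfl⟩ := AddSubgroup.mem_sup.1 hx
      rw [map_add, AddMonoidHom.mem_ker.1 hz, add_zero, hpg]
      exact ⟨p b, rfl⟩
    · rintro ⟨c, hc⟩
      obtain ⟨b, rfl⟩ := hp c
      refine AddSubgroup.mem_sup.2 ⟨gB b, ⟨b, rfl⟩, x - gB b, ?_, by abel⟩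
      rw [AddMonoidHom.mem_ker, map_sub, hpg, hc, sub_self]
  have h2 : i.range.comap fB = fC.ker.comap p := by
    rw [← hex]
    ext x
    simp only [AddSubgroup.mem_comap, AddMonoidHom.mem_ker, hpf]
  rw [h1, h2, relIndex_comap, AddSubgroup.map_comap_eq,
    AddMonoidHom.range_eq_top.2 hp, top_inf_eq]

/-- **Hexagon identity** for a short exact sequence `0 → A → B → C → 0` compatible with the
endomorphisms. -/
theorem hexagon_of_exact (hfg : ∀ b, fB (gB b) = 0) (hgf : ∀ b, gB (fB b) = 0)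
    (hi : Function.Injective i) (hp : Function.Surjective p) (hex : p.ker = i.range)
    (hif : ∀ a, i (fA a) = fB (i a)) (hig : ∀ a, i (gA a) = gB (i a))
    (hpf : ∀ b, p (fB b) = fC (p b)) (hpg : ∀ b, p (gB b) = gC (p b)) :
    hIndex fA gA * hIndex fC gC * hIndex gB fB =
      hIndex gA fA * hIndex gC fC * hIndex fB gB := by
  rw [hIndex_eq_hIndexSub hi hif hig, hIndex_eq_hIndexSub hi hig hif,
    hIndex_eq_hIndexQuot hp hex hpf hpg, hIndex_eq_hIndexQuot hp hex hpg hpf]
  refine hexagon hfg hgf ?_ ?_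
  · rintro _ ⟨a, rfl⟩
    exact ⟨fA a, hif a⟩
  · rintro _ ⟨a, rfl⟩
    exact ⟨gA a, hig a⟩

/-- the six auxiliary factorizations, packaged: all three `hIndex` pairs are products of
six common numbers. -/
theorem exists_factorization (hfg : ∀ b, fB (gB b) = 0) (hgf : ∀ b, gB (fB b) = 0)
    (hi : Function.Injective i) (hp : Function.Surjective p) (hex : p.ker = i.range)
    (hif : ∀ a, i (fA a) = fB (i a)) (hig : ∀ a, i (gA a) = gB (i a))
    (hpf : ∀ b, p (fB b) = fC (p b)) (hpg : ∀ b, p (gB b) = gC (p b)) :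
    ∃ αf αg βf βg γf γg : ℕ,
      hIndex fA gA = αg * βf ∧ hIndex gA fA = αf * βg ∧
      hIndex fB gB = βf * γf ∧ hIndex gB fB = βg * γg ∧
      hIndex fC gC = γf * αf ∧ hIndex gC fC = γg * αg := by
  have hfA : ∀ a ∈ i.range, fB a ∈ i.range := by
    rintro _ ⟨a, rfl⟩
    exact ⟨fA a, hif a⟩
  have hgA : ∀ a ∈ i.range, gB a ∈ i.range := by
    rintro _ ⟨a, rfl⟩
    exact ⟨gA a, hig a⟩
  refine ⟨auxAlpha fB i.range, auxAlpha gB i.range, auxBeta fB gB i.range,
    auxBeta gB fB i.range, auxGamma fB gB i.range, auxGamma gB fB i.range, ?_, ?_, ?_, ?_, ?_, ?_⟩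
  · rw [hIndex_eq_hIndexSub hi hif hig, hIndexSub_eq hfg hgA]; rfl
  · rw [hIndex_eq_hIndexSub hi hig hif, hIndexSub_eq hgf hfA]; rfl
  · exact hIndex_eq hfg
  · exact hIndex_eq hgf
  · rw [hIndex_eq_hIndexQuot hp hex hpf hpg, hIndexQuot_eq hfg hfA]
  · rw [hIndex_eq_hIndexQuot hp hex hpg hpf, hIndexQuot_eq hgf hgA]

variable (hfg : ∀ b, fB (gB b) = 0) (hgf : ∀ b, gB (fB b) = 0)
    (hi : Function.Injective i) (hp : Function.Surjective p) (hex : p.ker = i.range)
    (hif : ∀ a, i (fA a) = fB (i a)) (hig : ∀ a, i (gA a) = gB (i a))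
    (hpf : ∀ b, p (fB b) = fC (p b)) (hpg : ∀ b, p (gB b) = gC (p b))

include hfg hgf hi hp hex hif hig hpf hpg

/-- two out of three: `A`, `C` defined ⟹ `B` defined. -/
theorem isDefined_mid (hA : IsDefined fA gA) (hC : IsDefined fC gC) : IsDefined fB gB := by
  obtain ⟨αf, αg, βf, βg, γf, γg, h1, h2, h3, h4, h5, h6⟩ :=
    exists_factorization hfg hgf hi hp hex hif hig hpf hpg
  obtain ⟨a1, a2⟩ := hA
  obtain ⟨c1, c2⟩ := hC
  rw [h1] at a1; rw [h2] at a2; rw [h5] at c1; rw [h6] at c2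
  refine ⟨?_, ?_⟩
  · rw [h3]; exact Nat.mul_ne_zero (right_ne_zero_of_mul a1) (left_ne_zero_of_mul c1)
  · rw [h4]; exact Nat.mul_ne_zero (right_ne_zero_of_mul a2) (left_ne_zero_of_mul c2)

/-- two out of three: `A`, `B` defined ⟹ `C` defined. -/
theorem isDefined_right (hA : IsDefined fA gA) (hB : IsDefined fB gB) : IsDefined fC gC := by
  obtain ⟨αf, αg, βf, βg, γf, γg, h1, h2, h3, h4, h5, h6⟩ :=
    exists_factorization hfg hgf hi hp hex hif hig hpf hpg
  obtain ⟨a1, a2⟩ := hA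
  obtain ⟨b1, b2⟩ := hB
  rw [h1] at a1; rw [h2] at a2; rw [h3] at b1; rw [h4] at b2
  refine ⟨?_, ?_⟩
  · rw [h5]; exact Nat.mul_ne_zero (right_ne_zero_of_mul b1) (left_ne_zero_of_mul a2)
  · rw [h6]; exact Nat.mul_ne_zero (right_ne_zero_of_mul b2) (left_ne_zero_of_mul a1)

/-- two out of three: `B`, `C` defined ⟹ `A` defined. -/
theorem isDefined_left (hB : IsDefined fB gB) (hC : IsDefined fC gC) : IsDefined fA gA := by
  obtain ⟨αf, αg, βf, βg, γf, γg, h1, h2, h3, h4, h5, h6⟩ :=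
    exists_factorization hfg hgf hi hp hex hif hig hpf hpg
  obtain ⟨b1, b2⟩ := hB
  obtain ⟨c1, c2⟩ := hC
  rw [h3] at b1; rw [h4] at b2; rw [h5] at c1; rw [h6] at c2
  refine ⟨?_, ?_⟩
  · rw [h1]; exact Nat.mul_ne_zero (right_ne_zero_of_mul c2) (left_ne_zero_of_mul b1)
  · rw [h2]; exact Nat.mul_ne_zero (right_ne_zero_of_mul c1) (left_ne_zero_of_mul b2)

/-- **Multiplicativity of the Herbrand quotient** in short exact sequences. -/
theorem q_mul_of_exact (hA : IsDefined fA gA) (hC : IsDefined fC gC) :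
    q fB gB = q fA gA * q fC gC := by
  obtain ⟨αf, αg, βf, βg, γf, γg, h1, h2, h3, h4, h5, h6⟩ :=
    exists_factorization hfg hgf hi hp hex hif hig hpf hpg
  obtain ⟨a1, a2⟩ := hA
  obtain ⟨c1, c2⟩ := hC
  unfold q
  rw [h1] at a1 ⊢; rw [h2] at a2 ⊢; rw [h5] at c1 ⊢; rw [h6] at c2 ⊢
  rw [h3, h4]
  have hαf : (αf : ℚ) ≠ 0 := Nat.cast_ne_zero.2 (left_ne_zero_of_mul a2)
  have hαg : (αg : ℚ) ≠ 0 := Nat.cast_ne_zero.2 (left_ne_zero_of_mul a1)
  have hβf : (βf : ℚ) ≠ 0 := Nat.cast_ne_zero.2 (right_ne_zero_of_mul a1)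
  have hβg : (βg : ℚ) ≠ 0 := Nat.cast_ne_zero.2 (right_ne_zero_of_mul a2)
  have hγf : (γf : ℚ) ≠ 0 := Nat.cast_ne_zero.2 (left_ne_zero_of_mul c1)
  have hγg : (γg : ℚ) ≠ 0 := Nat.cast_ne_zero.2 (left_ne_zero_of_mul c2)
  push_cast
  field_simp

end Exact

section Finite

variable (f g : B →+ B)

lemma hIndex_mul_card_range (hfg : ∀ b, f (g b) = 0) :
    hIndex f g * Nat.card g.range = Nat.card f.ker := by
  unfold hIndex
  have h := AddSubgroup.relIndex_mul_relIndex (⊥ : AddSubgroup B) g.range f.ker bot_le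
    (range_le_ker hfg)
  rw [relIndex_bot_left, relIndex_bot_left] at h
  rw [mul_comm, h]

/-- The Herbrand quotient of a finite group is defined and equal to `1`:
`[ker f : im g] = [ker g : im f]`. -/
theorem hIndex_comm_of_finite [Finite B] (hfg : ∀ b, f (g b) = 0) (hgf : ∀ b, g (f b) = 0) :
    hIndex f g = hIndex g f := by
  have h1 := hIndex_mul_card_range f g hfg
  have h2 := hIndex_mul_card_range g f hgf
  have k1 : Nat.card f.ker * Nat.card f.range = Nat.card B := by
    have := AddSubgroup.card_mul_index f.ker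
    rwa [AddSubgroup.index_ker] at this
  have k2 : Nat.card g.ker * Nat.card g.range = Nat.card B := by
    have := AddSubgroup.card_mul_index g.ker
    rwa [AddSubgroup.index_ker] at this
  have hpos1 : Nat.card f.range ≠ 0 := Nat.card_pos.ne'
  have hpos2 : Nat.card g.range ≠ 0 := Nat.card_pos.ne'
  have : hIndex f g * (Nat.card g.range * Nat.card f.range) =
      hIndex g f * (Nat.card g.range * Nat.card f.range) := by
    calc hIndex f g * (Nat.card g.range * Nat.card f.range)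
        = (hIndex f g * Nat.card g.range) * Nat.card f.range := by ring
      _ = Nat.card B := by rw [h1, k1]
      _ = (hIndex g f * Nat.card f.range) * Nat.card g.range := by rw [h2, k2]
      _ = hIndex g f * (Nat.card g.range * Nat.card f.range) := by ring
  exact Nat.eq_of_mul_eq_mul_right (Nat.pos_of_ne_zero (Nat.mul_ne_zero hpos2 hpos1)) this

lemma hIndex_ne_zero_of_finite [Finite B] : hIndex f g ≠ 0 := by
  unfold hIndex
  intro h
  have : (g.range.addSubgroupOf f.ker).index = 0 := h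
  exact (AddSubgroup.index_ne_zero_of_finite (H := g.range.addSubgroupOf f.ker)) this

theorem isDefined_of_finite [Finite B] : IsDefined f g :=
  ⟨hIndex_ne_zero_of_finite f g, hIndex_ne_zero_of_finite g f⟩

theorem q_eq_one_of_finite [Finite B] (hfg : ∀ b, f (g b) = 0) (hgf : ∀ b, g (f b) = 0) :
    q f g = 1 := by
  unfold q
  rw [hIndex_comm_of_finite f g hfg hgf]
  exact div_self (Nat.cast_ne_zero.2 (hIndex_ne_zero_of_finite g f))

end Finite

end Fermat.Agent.S55.Herbrand
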