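import Fermat.Agent.S55.Herbrand.Basic

/-!
# Herbrand quotient: invariance under finite kernels and finite cokernels

* `isDefined_iff_of_finite_coker`, `q_eq_of_finite_coker` : if `i : A → B` is injective,
  compatible with the endomorphisms, and `i.range` has finite index, then `q A = q B`;
* `isDefined_iff_of_finite_ker`, `q_eq_of_finite_ker` : if `p : B → C` is surjective,
  compatible with the endomorphisms, and `p.ker` is finite, then `q B = q C`;
* `q_eq_zero_of_not_isDefined` : the junk value of `q` is `0`.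
-/

set_option autoImplicit false

namespace Fermat.Agent.S55.Herbrand

open AddSubgroup

variable {A B C : Type*} [AddCommGroup A] [AddCommGroup B] [AddCommGroup C]

lemma q_eq_zero_of_not_isDefined {f g : B →+ B} (h : ¬ IsDefined f g) : q f g = 0 := by
  unfold IsDefined at h
  unfold q
  by_cases h1 : hIndex f g = 0
  · rw [h1]; simp
  · have h2 : hIndex g f = 0 := by
      by_contra h2
      exact h ⟨h1, h2⟩
    rw [h2]; simp

lemma isDefined_iff_q_ne_zero {f g : B →+ B} : IsDefined f g ↔ q f g ≠ 0 :=
  ⟨fun h => h.q_ne_zero, fun h => by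
    by_contra h'
    exact h (q_eq_zero_of_not_isDefined h')⟩

section Equiv

variable {fA gA : A →+ A} {fB gB : B →+ B}

/-- an isomorphism compatible with the endomorphisms preserves the Herbrand indices. -/
theorem hIndex_eq_of_equiv (e : A ≃+ B) (hef : ∀ a, e (fA a) = fB (e a))
    (heg : ∀ a, e (gA a) = gB (e a)) : hIndex fA gA = hIndex fB gB := by
  rw [hIndex_eq_hIndexSub (i := e.toAddMonoidHom) e.injective hef heg]
  unfold hIndexSub hIndex
  have h : (e.toAddMonoidHom).range = ⊤ := AddMonoidHom.range_eq_top.2 e.surjective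
  rw [h, top_inf_eq, ← AddMonoidHom.range_eq_map]

theorem isDefined_iff_of_equiv (e : A ≃+ B) (hef : ∀ a, e (fA a) = fB (e a))
    (heg : ∀ a, e (gA a) = gB (e a)) : IsDefined fA gA ↔ IsDefined fB gB := by
  unfold IsDefined
  rw [hIndex_eq_of_equiv e hef heg, hIndex_eq_of_equiv e heg hef]

theorem q_eq_of_equiv (e : A ≃+ B) (hef : ∀ a, e (fA a) = fB (e a))
    (heg : ∀ a, e (gA a) = gB (e a)) : q fA gA = q fB gB := by
  unfold q
  rw [hIndex_eq_of_equiv e hef heg, hIndex_eq_of_equiv e heg hef]

end Equiv

section FiniteCoker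

variable {fA gA : A →+ A} {fB gB : B →+ B} {i : A →+ B}

/-- the endomorphism induced on `B ⧸ i.range` by an endomorphism of `B` compatible with `i`. -/
noncomputable def quotEnd (fA : A →+ A) (fB : B →+ B) (i : A →+ B)
    (hif : ∀ a, i (fA a) = fB (i a)) : (B ⧸ i.range) →+ (B ⧸ i.range) :=
  QuotientAddGroup.map i.range i.range fB (by
    rintro _ ⟨a, rfl⟩
    exact ⟨fA a, hif a⟩)

lemma quotEnd_mk (hif : ∀ a, i (fA a) = fB (i a)) (b : B) :
    quotEnd fA fB i hif (QuotientAddGroup.mk' i.range b) = QuotientAddGroup.mk' i.range (fB b) :=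
  rfl

variable (hfg : ∀ b, fB (gB b) = 0) (hgf : ∀ b, gB (fB b) = 0)
    (hi : Function.Injective i) (hfin : i.range.FiniteIndex)
    (hif : ∀ a, i (fA a) = fB (i a)) (hig : ∀ a, i (gA a) = gB (i a))

include hfg hgf hi hfin hif hig

theorem isDefined_iff_of_finite_coker : IsDefined fA gA ↔ IsDefined fB gB := by
  have : Finite (B ⧸ i.range) := AddSubgroup.finite_quotient_of_finiteIndex
  have hC : IsDefined (quotEnd fA fB i hif) (quotEnd gA gB i hig) := isDefined_of_finite _ _
  have hp : Function.Surjective (QuotientAddGroup.mk' i.range) :=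
    QuotientAddGroup.mk'_surjective _
  have hex : (QuotientAddGroup.mk' i.range).ker = i.range := QuotientAddGroup.ker_mk' _
  constructor
  · intro hA
    exact isDefined_mid hfg hgf hi hp hex hif hig (fun _ => rfl) (fun _ => rfl) hA hC
  · intro hB
    exact isDefined_left hfg hgf hi hp hex hif hig (fun _ => rfl) (fun _ => rfl) hB hC

theorem q_eq_of_finite_coker : q fA gA = q fB gB := by
  have : Finite (B ⧸ i.range) := AddSubgroup.finite_quotient_of_finiteIndex
  have hC : IsDefined (quotEnd fA fB i hif) (quotEnd gA gB i hig) := isDefined_of_finite _ _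
  have hp : Function.Surjective (QuotientAddGroup.mk' i.range) :=
    QuotientAddGroup.mk'_surjective _
  have hex : (QuotientAddGroup.mk' i.range).ker = i.range := QuotientAddGroup.ker_mk' _
  by_cases hA : IsDefined fA gA
  · rw [q_mul_of_exact hfg hgf hi hp hex hif hig (fun _ => rfl) (fun _ => rfl) hA hC]
    have h1 : q (quotEnd fA fB i hif) (quotEnd gA gB i hig) = 1 := by
      refine q_eq_one_of_finite _ _ ?_ ?_
      · intro c
        obtain ⟨b, rfl⟩ := hp c
        rw [quotEnd_mk, quotEnd_mk, hfg, map_zero]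
      · intro c
        obtain ⟨b, rfl⟩ := hp c
        rw [quotEnd_mk, quotEnd_mk, hgf, map_zero]
    rw [h1, mul_one]
  · have hB : ¬ IsDefined fB gB := fun hB =>
      hA ((isDefined_iff_of_finite_coker hfg hgf hi hfin hif hig).2 hB)
    rw [q_eq_zero_of_not_isDefined hA, q_eq_zero_of_not_isDefined hB]

end FiniteCoker

section FiniteKer

variable {fB gB : B →+ B} {fC gC : C →+ C} {p : B →+ C}

/-- the endomorphism induced on `p.ker` by an endomorphism of `B` compatible with `p`. -/
def kerEnd (fB : B →+ B) (fC : C →+ C) (p : B →+ C)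
    (hpf : ∀ b, p (fB b) = fC (p b)) : p.ker →+ p.ker :=
  (fB.comp p.ker.subtype).codRestrict p.ker (by
    rintro ⟨b, hb⟩
    rw [AddMonoidHom.mem_ker] at hb ⊢
    simp only [AddMonoidHom.coe_comp, AddSubgroup.coe_subtype, Function.comp_apply]
    rw [hpf, hb, map_zero])

lemma kerEnd_coe (hpf : ∀ b, p (fB b) = fC (p b)) (x : p.ker) :
    (kerEnd fB fC p hpf x : B) = fB x := rfl

variable (hfg : ∀ b, fB (gB b) = 0) (hgf : ∀ b, gB (fB b) = 0)
    (hp : Function.Surjective p) (hfin : Finite p.ker)
    (hpf : ∀ b, p (fB b) = fC (p b)) (hpg : ∀ b, p (gB b) = gC (p b))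

include hfg hgf hp hfin hpf hpg

theorem isDefined_iff_of_finite_ker : IsDefined fB gB ↔ IsDefined fC gC := by
  have hA : IsDefined (kerEnd fB fC p hpf) (kerEnd gB gC p hpg) := isDefined_of_finite _ _
  have hi : Function.Injective p.ker.subtype := Subtype.val_injective
  have hex : p.ker = p.ker.subtype.range := by
    rw [AddSubgroup.range_subtype]
  constructor
  · intro hB
    exact isDefined_right hfg hgf hi hp hex (fun _ => rfl) (fun _ => rfl) hpf hpg hA hB
  · intro hC
    exact isDefined_mid hfg hgf hi hp hex (fun _ => rfl) (fun _ => rfl) hpf hpg hA hC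

theorem q_eq_of_finite_ker : q fB gB = q fC gC := by
  have hA : IsDefined (kerEnd fB fC p hpf) (kerEnd gB gC p hpg) := isDefined_of_finite _ _
  have hi : Function.Injective p.ker.subtype := Subtype.val_injective
  have hex : p.ker = p.ker.subtype.range := by
    rw [AddSubgroup.range_subtype]
  by_cases hC : IsDefined fC gC
  · rw [q_mul_of_exact hfg hgf hi hp hex (fun _ => rfl) (fun _ => rfl) hpf hpg hA hC]
    have h1 : q (kerEnd fB fC p hpf) (kerEnd gB gC p hpg) = 1 := by
      refine q_eq_one_of_finite _ _ ?_ ?_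
      · intro x
        apply Subtype.ext
        rw [kerEnd_coe, kerEnd_coe, hfg]; rfl
      · intro x
        apply Subtype.ext
        rw [kerEnd_coe, kerEnd_coe, hgf]; rfl
    rw [h1, one_mul]
  · have hB : ¬ IsDefined fB gB := fun hB =>
      hC ((isDefined_iff_of_finite_ker hfg hgf hp hfin hpf hpg).1 hB)
    rw [q_eq_zero_of_not_isDefined hB, q_eq_zero_of_not_isDefined hC]

end FiniteKer

end Fermat.Agent.S55.Herbrand
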