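import Fermat.Agent.S55.Herbrand.RepBridge

/-!
# Herbrand indices of a representation of a finite cyclic group (no `CommGroup` instance)

Same as `RepBridge.lean`, but for `[Group G]` together with a generator `g`
(`hg : ∀ x, x ∈ Subgroup.zpowers g`), which is the form needed for Galois groups.

* `gAct A g` : the additive endomorphism `ρ g` of `A`;
* `card_H2_eq_h0`, `card_H1_eq_h1` : `|H²(G, A)| = h0`, `|H¹(G, A)| = h1`;
* `ker_delta_gAct` : `ker (g - 1) = A^G`;
* `range_normN_gAct`, `ker_normN_gAct` : `normN = ∑_{h ∈ G} ρ h`;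
* `range_delta_gAct` : `im (g - 1) = ∑_h im (h - 1)`.
-/

set_option autoImplicit false

namespace Fermat.Agent.S55.Herbrand

open CategoryTheory groupCohomology

universe u

variable {k G : Type u} [CommRing k] [Group G]

/-- additive endomorphism given by the action of `g`. -/
def gAct (A : Rep k G) (g : G) : AddMonoid.End A.V := (A.ρ g).toAddMonoidHom

@[simp] lemma gAct_apply (A : Rep k G) (g : G) (x : A.V) : gAct A g x = A.ρ g x := rfl

lemma gAct_pow_apply (A : Rep k G) (g : G) (i : ℕ) (x : A.V) :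
    (gAct A g ^ i) x = A.ρ (g ^ i) x := by
  induction i generalizing x with
  | zero => simp
  | succ i ih =>
    rw [pow_succ, pow_succ]
    change (gAct A g ^ i) (gAct A g x) = _
    rw [ih, gAct_apply, map_mul]
    rfl

lemma mul_comm_of_forall_mem_zpowers (g : G) (hg : ∀ x, x ∈ Subgroup.zpowers g) (a b : G) :
    a * b = b * a := by
  obtain ⟨m, rfl⟩ := Subgroup.mem_zpowers_iff.1 (hg a)
  obtain ⟨n, rfl⟩ := Subgroup.mem_zpowers_iff.1 (hg b)
  rw [← zpow_add, ← zpow_add, add_comm]

lemma gAct_pow_card [Finite G] (A : Rep k G) (g : G) : gAct A g ^ Nat.card G = 1 := by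
  ext x
  rw [gAct_pow_apply, pow_card_eq_one', map_one]
  rfl

/-- equivariance of a morphism of representations. -/
lemma hom_gAct {A B : Rep k G} (f : A ⟶ B) (g : G) (x : A.V) :
    f.hom (gAct A g x) = gAct B g (f.hom x) := by
  simp only [gAct_apply]
  exact Rep.hom_comm_apply f g x

lemma ker_delta_gAct (A : Rep k G) (g : G) (hg : ∀ x, x ∈ Subgroup.zpowers g) :
    AddMonoidHom.ker (delta (gAct A g)) = A.ρ.invariants.toAddSubgroup := by
  ext x
  rw [AddMonoidHom.mem_ker, delta_apply, sub_eq_zero, gAct_apply]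
  exact (Representation.mem_invariants_iff_of_forall_mem_zpowers A.ρ g hg x).symm

lemma range_sub_one_le_of_gen [Finite G] (A : Rep k G) (g : G)
    (hg : ∀ x, x ∈ Subgroup.zpowers g) (h : G) :
    LinearMap.range (A.ρ h - 1) ≤ LinearMap.range (A.ρ g - 1) := by
  classical
  obtain ⟨i, -, rfl⟩ :=
    Finset.mem_image.1 ((mem_zpowers_iff_mem_range_orderOf (x := g) (y := h)).1 (hg h))
  rintro _ ⟨x, rfl⟩
  have key : A.ρ (g ^ i) - 1 = (A.ρ g - 1) * ∑ j ∈ Finset.range i, A.ρ g ^ j := by
    rw [mul_geom_sum, map_pow]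
  rw [key]
  exact ⟨(∑ j ∈ Finset.range i, A.ρ g ^ j) x, rfl⟩

lemma range_delta_gAct [Finite G] (A : Rep k G) (g : G)
    (hg : ∀ x, x ∈ Subgroup.zpowers g) :
    AddMonoidHom.range (delta (gAct A g)) =
      (⨆ h : G, LinearMap.range (A.ρ h - 1)).toAddSubgroup := by
  have hsup : (⨆ h : G, LinearMap.range (A.ρ h - 1)) = LinearMap.range (A.ρ g - 1) :=
    le_antisymm (iSup_le fun h => range_sub_one_le_of_gen A g hg h)
      (le_iSup (fun h : G => LinearMap.range (A.ρ h - 1)) g)
  rw [hsup]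
  ext x
  constructor
  · rintro ⟨y, rfl⟩
    exact ⟨y, rfl⟩
  · rintro ⟨y, rfl⟩
    exact ⟨y, rfl⟩

variable [Fintype G]

theorem card_H2_eq_h0 (A : Rep k G) (g : G) (hg : ∀ x, x ∈ Subgroup.zpowers g) :
    Nat.card (groupCohomology A 2) = h0 (gAct A g) (Nat.card G) := by
  let inst : CommGroup G :=
    { (inferInstance : Group G) with mul_comm := mul_comm_of_forall_mem_zpowers g hg }
  exact card_groupCohomology_even A g hg 2 (by decide)

theorem card_H1_eq_h1 (A : Rep k G) (g : G) (hg : ∀ x, x ∈ Subgroup.zpowers g) :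
    Nat.card (groupCohomology A 1) = h1 (gAct A g) (Nat.card G) := by
  let inst : CommGroup G :=
    { (inferInstance : Group G) with mul_comm := mul_comm_of_forall_mem_zpowers g hg }
  exact card_groupCohomology_odd A g hg 1 (by decide)

lemma normN_gAct_apply (A : Rep k G) (g : G) (hg : ∀ x, x ∈ Subgroup.zpowers g) (x : A.V) :
    normN (gAct A g) (Nat.card G) x = ∑ h : G, A.ρ h x := by
  rw [normN_apply, sum_eq_sum_range_pow g hg]
  exact Finset.sum_congr rfl fun i _ => gAct_pow_apply A g i x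

lemma normN_gAct_apply' (A : Rep k G) (g : G) (hg : ∀ x, x ∈ Subgroup.zpowers g) (x : A.V) :
    normN (gAct A g) (Nat.card G) x = A.ρ.norm x := by
  rw [normN_gAct_apply A g hg]
  simp [Representation.norm]

lemma range_normN_gAct (A : Rep k G) (g : G) (hg : ∀ x, x ∈ Subgroup.zpowers g) :
    AddMonoidHom.range (normN (gAct A g) (Nat.card G)) =
      (LinearMap.range A.ρ.norm).toAddSubgroup := by
  ext x
  constructor
  · rintro ⟨y, rfl⟩
    exact ⟨y, (normN_gAct_apply' A g hg y).symm⟩
  · rintro ⟨y, rfl⟩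
    exact ⟨y, normN_gAct_apply' A g hg y⟩

lemma ker_normN_gAct (A : Rep k G) (g : G) (hg : ∀ x, x ∈ Subgroup.zpowers g) :
    AddMonoidHom.ker (normN (gAct A g) (Nat.card G)) =
      (LinearMap.ker A.ρ.norm).toAddSubgroup := by
  ext x
  rw [AddMonoidHom.mem_ker, normN_gAct_apply' A g hg]
  rfl

/-- finiteness of `H¹` and `H²` is the statement that the Herbrand quotient is defined. -/
lemma finite_H1_and_H2_iff (A : Rep k G) (g : G) (hg : ∀ x, x ∈ Subgroup.zpowers g) :
    (Finite (groupCohomology A 1) ∧ Finite (groupCohomology A 2)) ↔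
      HerbrandDefined (gAct A g) (Nat.card G) := by
  rw [herbrandDefined_iff, ← card_H2_eq_h0 A g hg, ← card_H1_eq_h1 A g hg]
  constructor
  · rintro ⟨h1, h2⟩
    exact ⟨Nat.card_pos.ne', Nat.card_pos.ne'⟩
  · rintro ⟨h2, h1⟩
    exact ⟨(Nat.card_ne_zero.1 h1).2, (Nat.card_ne_zero.1 h2).2⟩

end Fermat.Agent.S55.Herbrand
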