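import Fermat.Agent.S55.Herbrand.FiniteIndex

/-!
# Herbrand quotient of a module over a finite cyclic group

For an additive commutative group `A` with an endomorphism `σ` such that `σ ^ n = 1`, put
`delta σ = σ - 1` and `normN σ n = 1 + σ + ⋯ + σ ^ (n - 1)`.  Then
`h0 σ n = [ker (σ - 1) : im N]` (the order of `Ĥ⁰ ≅ H²`) and
`h1 σ n = [ker N : im (σ - 1)]` (the order of `Ĥ⁻¹ ≅ H¹`), and the Herbrand quotient is
`herbrand σ n = h0 / h1`.

* `herbrand_mul_of_exact` : multiplicativity in short exact sequences;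
* `herbrand_eq_one_of_finite`;
* `herbrand_eq_of_finite_coker`, `herbrand_eq_of_finite_ker`;
* `herbrand_one` : for the trivial action, `herbrand 1 n = [A : nA] / |A[n]|`;
* `herbrand_int` : `herbrand (1 : End ℤ) n = n`.
-/

set_option autoImplicit false

namespace Fermat.Agent.S55.Herbrand

open AddSubgroup

variable {A B C : Type*} [AddCommGroup A] [AddCommGroup B] [AddCommGroup C]

/-- `σ - 1` as an endomorphism. -/
def delta (σ : AddMonoid.End A) : A →+ A := (σ - 1 : AddMonoid.End A)

/-- The norm `1 + σ + ⋯ + σ^(n-1)` as an endomorphism. -/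
def normN (σ : AddMonoid.End A) (n : ℕ) : A →+ A :=
  (∑ i ∈ Finset.range n, σ ^ i : AddMonoid.End A)

@[simp] lemma delta_apply (σ : AddMonoid.End A) (a : A) : delta σ a = σ a - a := rfl

lemma normN_apply (σ : AddMonoid.End A) (n : ℕ) (a : A) :
    normN σ n a = ∑ i ∈ Finset.range n, (σ ^ i) a := by
  simp only [normN]
  exact map_sum (AddMonoidHom.eval a) _ _

lemma delta_normN {σ : AddMonoid.End A} {n : ℕ} (hσ : σ ^ n = 1) (a : A) :
    delta σ (normN σ n a) = 0 := by
  have h : (σ - 1) * ∑ i ∈ Finset.range n, σ ^ i = 0 := by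
    rw [mul_geom_sum, hσ, sub_self]
  exact DFunLike.congr_fun h a

lemma normN_delta {σ : AddMonoid.End A} {n : ℕ} (hσ : σ ^ n = 1) (a : A) :
    normN σ n (delta σ a) = 0 := by
  have h : (∑ i ∈ Finset.range n, σ ^ i) * (σ - 1) = 0 := by
    rw [geom_sum_mul, hσ, sub_self]
  exact DFunLike.congr_fun h a

/-- `h⁰ = [ker (σ - 1) : im N]`, the order of `Ĥ⁰(⟨σ⟩, A)` (`0` if infinite). -/
noncomputable def h0 (σ : AddMonoid.End A) (n : ℕ) : ℕ := hIndex (delta σ) (normN σ n)

/-- `h¹ = [ker N : im (σ - 1)]`, the order of `H¹(⟨σ⟩, A)` (`0` if infinite). -/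
noncomputable def h1 (σ : AddMonoid.End A) (n : ℕ) : ℕ := hIndex (normN σ n) (delta σ)

/-- The Herbrand quotient is defined: `h⁰` and `h¹` are finite. -/
def HerbrandDefined (σ : AddMonoid.End A) (n : ℕ) : Prop := IsDefined (delta σ) (normN σ n)

/-- Herbrand quotient `h⁰/h¹ = [ker (σ-1) : im N] / [ker N : im (σ-1)]`. -/
noncomputable def herbrand (σ : AddMonoid.End A) (n : ℕ) : ℚ := q (delta σ) (normN σ n)

lemma herbrand_eq_div (σ : AddMonoid.End A) (n : ℕ) :
    herbrand σ n = (h0 σ n : ℚ) / (h1 σ n : ℚ) := rfl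

lemma herbrandDefined_iff (σ : AddMonoid.End A) (n : ℕ) :
    HerbrandDefined σ n ↔ h0 σ n ≠ 0 ∧ h1 σ n ≠ 0 := Iff.rfl

lemma h0_eq_relIndex (σ : AddMonoid.End A) (n : ℕ) :
    h0 σ n = (AddMonoidHom.range (normN σ n)).relIndex (AddMonoidHom.ker (delta σ)) := rfl

lemma h1_eq_relIndex (σ : AddMonoid.End A) (n : ℕ) :
    h1 σ n = (AddMonoidHom.range (delta σ)).relIndex (AddMonoidHom.ker (normN σ n)) := rfl

section Equivariant

variable {σA : AddMonoid.End A} {σB : AddMonoid.End B} {σC : AddMonoid.End C}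

lemma map_pow_of_comm {i : A →+ B} (hiσ : ∀ a, i (σA a) = σB (i a)) (k : ℕ) (a : A) :
    i ((σA ^ k) a) = (σB ^ k) (i a) := by
  induction k generalizing a with
  | zero => simp
  | succ k ih =>
    rw [pow_succ, pow_succ]
    change i ((σA ^ k) (σA a)) = (σB ^ k) (σB (i a))
    rw [ih, hiσ]

lemma map_delta_of_comm {i : A →+ B} (hiσ : ∀ a, i (σA a) = σB (i a)) (a : A) :
    i (delta σA a) = delta σB (i a) := by
  simp [hiσ]

lemma map_normN_of_comm {i : A →+ B} (hiσ : ∀ a, i (σA a) = σB (i a)) (n : ℕ) (a : A) :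
    i (normN σA n a) = normN σB n (i a) := by
  rw [normN_apply, normN_apply, map_sum]
  exact Finset.sum_congr rfl fun k _ => map_pow_of_comm hiσ k a

variable {n : ℕ} {i : A →+ B} {p : B →+ C}

/-- **Multiplicativity of the Herbrand quotient** for an equivariant short exact sequence
`0 → A → B → C → 0` of modules over a cyclic group. -/
theorem herbrand_mul_of_exact (hσ : σB ^ n = 1)
    (hi : Function.Injective i) (hp : Function.Surjective p) (hex : p.ker = i.range)
    (hiσ : ∀ a, i (σA a) = σB (i a)) (hpσ : ∀ b, p (σB b) = σC (p b))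
    (hA : HerbrandDefined σA n) (hC : HerbrandDefined σC n) :
    herbrand σB n = herbrand σA n * herbrand σC n :=
  q_mul_of_exact (delta_normN hσ) (normN_delta hσ) hi hp hex (map_delta_of_comm hiσ)
    (map_normN_of_comm hiσ n) (map_delta_of_comm hpσ) (map_normN_of_comm hpσ n) hA hC

theorem herbrandDefined_mid (hσ : σB ^ n = 1)
    (hi : Function.Injective i) (hp : Function.Surjective p) (hex : p.ker = i.range)
    (hiσ : ∀ a, i (σA a) = σB (i a)) (hpσ : ∀ b, p (σB b) = σC (p b))
    (hA : HerbrandDefined σA n) (hC : HerbrandDefined σC n) : HerbrandDefined σB n :=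
  isDefined_mid (delta_normN hσ) (normN_delta hσ) hi hp hex (map_delta_of_comm hiσ)
    (map_normN_of_comm hiσ n) (map_delta_of_comm hpσ) (map_normN_of_comm hpσ n) hA hC

theorem herbrandDefined_left (hσ : σB ^ n = 1)
    (hi : Function.Injective i) (hp : Function.Surjective p) (hex : p.ker = i.range)
    (hiσ : ∀ a, i (σA a) = σB (i a)) (hpσ : ∀ b, p (σB b) = σC (p b))
    (hB : HerbrandDefined σB n) (hC : HerbrandDefined σC n) : HerbrandDefined σA n :=
  isDefined_left (delta_normN hσ) (normN_delta hσ) hi hp hex (map_delta_of_comm hiσ)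
    (map_normN_of_comm hiσ n) (map_delta_of_comm hpσ) (map_normN_of_comm hpσ n) hB hC

theorem herbrandDefined_right (hσ : σB ^ n = 1)
    (hi : Function.Injective i) (hp : Function.Surjective p) (hex : p.ker = i.range)
    (hiσ : ∀ a, i (σA a) = σB (i a)) (hpσ : ∀ b, p (σB b) = σC (p b))
    (hA : HerbrandDefined σA n) (hB : HerbrandDefined σB n) : HerbrandDefined σC n :=
  isDefined_right (delta_normN hσ) (normN_delta hσ) hi hp hex (map_delta_of_comm hiσ)
    (map_normN_of_comm hiσ n) (map_delta_of_comm hpσ) (map_normN_of_comm hpσ n) hA hB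

/-- An equivariant injection with finite cokernel preserves the Herbrand quotient. -/
theorem herbrand_eq_of_finite_coker (hσ : σB ^ n = 1)
    (hi : Function.Injective i) (hfin : i.range.FiniteIndex)
    (hiσ : ∀ a, i (σA a) = σB (i a)) : herbrand σA n = herbrand σB n :=
  q_eq_of_finite_coker (delta_normN hσ) (normN_delta hσ) hi hfin (map_delta_of_comm hiσ)
    (map_normN_of_comm hiσ n)

theorem herbrandDefined_iff_of_finite_coker (hσ : σB ^ n = 1)
    (hi : Function.Injective i) (hfin : i.range.FiniteIndex)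
    (hiσ : ∀ a, i (σA a) = σB (i a)) : HerbrandDefined σA n ↔ HerbrandDefined σB n :=
  isDefined_iff_of_finite_coker (delta_normN hσ) (normN_delta hσ) hi hfin
    (map_delta_of_comm hiσ) (map_normN_of_comm hiσ n)

/-- An equivariant surjection with finite kernel preserves the Herbrand quotient. -/
theorem herbrand_eq_of_finite_ker (hσ : σB ^ n = 1)
    (hp : Function.Surjective p) (hfin : Finite p.ker)
    (hpσ : ∀ b, p (σB b) = σC (p b)) : herbrand σB n = herbrand σC n :=
  q_eq_of_finite_ker (delta_normN hσ) (normN_delta hσ) hp hfin (map_delta_of_comm hpσ)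
    (map_normN_of_comm hpσ n)

theorem herbrandDefined_iff_of_finite_ker (hσ : σB ^ n = 1)
    (hp : Function.Surjective p) (hfin : Finite p.ker)
    (hpσ : ∀ b, p (σB b) = σC (p b)) : HerbrandDefined σB n ↔ HerbrandDefined σC n :=
  isDefined_iff_of_finite_ker (delta_normN hσ) (normN_delta hσ) hp hfin
    (map_delta_of_comm hpσ) (map_normN_of_comm hpσ n)

/-- An equivariant isomorphism preserves `h⁰`. -/
theorem h0_eq_of_equiv (e : A ≃+ B) (heσ : ∀ a, e (σA a) = σB (e a)) (n : ℕ) :
    h0 σA n = h0 σB n :=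
  hIndex_eq_of_equiv e (map_delta_of_comm (i := e.toAddMonoidHom) heσ)
    (map_normN_of_comm (i := e.toAddMonoidHom) heσ n)

/-- An equivariant isomorphism preserves `h¹`. -/
theorem h1_eq_of_equiv (e : A ≃+ B) (heσ : ∀ a, e (σA a) = σB (e a)) (n : ℕ) :
    h1 σA n = h1 σB n :=
  hIndex_eq_of_equiv e (map_normN_of_comm (i := e.toAddMonoidHom) heσ n)
    (map_delta_of_comm (i := e.toAddMonoidHom) heσ)

theorem herbrand_eq_of_equiv (e : A ≃+ B) (heσ : ∀ a, e (σA a) = σB (e a)) (n : ℕ) :
    herbrand σA n = herbrand σB n := by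
  rw [herbrand_eq_div, herbrand_eq_div, h0_eq_of_equiv e heσ n, h1_eq_of_equiv e heσ n]

end Equivariant

section Finite

theorem herbrand_eq_one_of_finite [Finite A] {σ : AddMonoid.End A} {n : ℕ} (hσ : σ ^ n = 1) :
    herbrand σ n = 1 :=
  q_eq_one_of_finite _ _ (delta_normN hσ) (normN_delta hσ)

theorem herbrandDefined_of_finite [Finite A] (σ : AddMonoid.End A) (n : ℕ) :
    HerbrandDefined σ n :=
  isDefined_of_finite _ _

theorem h0_eq_h1_of_finite [Finite A] {σ : AddMonoid.End A} {n : ℕ} (hσ : σ ^ n = 1) :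
    h0 σ n = h1 σ n :=
  hIndex_comm_of_finite _ _ (delta_normN hσ) (normN_delta hσ)

end Finite

section Trivial

lemma delta_one : delta (1 : AddMonoid.End A) = 0 := by
  unfold delta; rw [sub_self]; rfl

lemma normN_one_apply (n : ℕ) (a : A) : normN (1 : AddMonoid.End A) n a = n • a := by
  rw [normN_apply]
  simp

/-- for the trivial action `h⁰ = [A : nA]`. -/
lemma h0_one (n : ℕ) :
    h0 (1 : AddMonoid.End A) n = (AddMonoidHom.range (nsmulAddMonoidHom (α := A) n)).index := by
  rw [h0_eq_relIndex, delta_one]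
  have h1 : AddMonoidHom.ker (0 : A →+ A) = ⊤ := by
    ext x
    simp only [AddSubgroup.mem_top, iff_true]
    exact AddMonoidHom.mem_ker.2 rfl
  have h2 : AddMonoidHom.range (normN (1 : AddMonoid.End A) n)
      = AddMonoidHom.range (nsmulAddMonoidHom (α := A) n) := by
    ext x
    constructor
    · rintro ⟨y, rfl⟩
      exact ⟨y, (normN_one_apply n y).symm⟩
    · rintro ⟨y, rfl⟩
      exact ⟨y, normN_one_apply n y⟩
  rw [h1, h2, relIndex_top_right]

/-- for the trivial action `h¹ = |A[n]|`. -/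
lemma h1_one (n : ℕ) :
    h1 (1 : AddMonoid.End A) n = Nat.card (AddMonoidHom.ker (nsmulAddMonoidHom (α := A) n)) := by
  rw [h1_eq_relIndex, delta_one]
  have h1 : AddMonoidHom.range (0 : A →+ A) = ⊥ := by
    ext x
    simp only [AddSubgroup.mem_bot]
    constructor
    · rintro ⟨y, rfl⟩; rfl
    · rintro rfl; exact ⟨0, rfl⟩
  have h2 : AddMonoidHom.ker (normN (1 : AddMonoid.End A) n)
      = AddMonoidHom.ker (nsmulAddMonoidHom (α := A) n) := by
    ext x
    rw [AddMonoidHom.mem_ker, AddMonoidHom.mem_ker, normN_one_apply, nsmulAddMonoidHom_apply]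
  rw [h1, h2, relIndex_bot_left]

theorem h0_int (n : ℕ) : h0 (1 : AddMonoid.End ℤ) n = n := by
  rw [h0_one]
  have : AddMonoidHom.range (nsmulAddMonoidHom (α := ℤ) n) = AddSubgroup.zmultiples (n : ℤ) := by
    ext x
    simp only [AddMonoidHom.mem_range, nsmulAddMonoidHom_apply, AddSubgroup.mem_zmultiples_iff,
      nsmul_eq_mul, smul_eq_mul]
    constructor
    · rintro ⟨y, rfl⟩; exact ⟨y, mul_comm _ _⟩
    · rintro ⟨y, rfl⟩; exact ⟨y, mul_comm _ _⟩
  rw [this, Int.index_zmultiples]
  simp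

theorem h1_int {n : ℕ} (hn : n ≠ 0) : h1 (1 : AddMonoid.End ℤ) n = 1 := by
  rw [h1_one]
  have : AddMonoidHom.ker (nsmulAddMonoidHom (α := ℤ) n) = ⊥ := by
    ext x
    simp only [AddMonoidHom.mem_ker, nsmulAddMonoidHom_apply, AddSubgroup.mem_bot, nsmul_eq_mul]
    constructor
    · intro h
      rcases mul_eq_zero.1 h with h | h
      · exact absurd (by exact_mod_cast h) hn
      · exact h
    · rintro rfl; simp
  rw [this]
  simp

/-- **The Herbrand quotient of `ℤ` with trivial action of a cyclic group of order `n` is `n`.** -/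
theorem herbrand_int {n : ℕ} (hn : n ≠ 0) : herbrand (1 : AddMonoid.End ℤ) n = n := by
  rw [herbrand_eq_div, h0_int, h1_int hn]
  simp

theorem herbrandDefined_int {n : ℕ} (hn : n ≠ 0) : HerbrandDefined (1 : AddMonoid.End ℤ) n := by
  rw [herbrandDefined_iff, h0_int, h1_int hn]
  exact ⟨hn, one_ne_zero⟩

end Trivial

end Fermat.Agent.S55.Herbrand
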