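import Fermat.Agent.S55.Herbrand.Cyclic

/-!
# Herbrand quotient of a module with a "valuation" and a cohomologically trivial subgroup

Abstract form of the computation `h(Lˣ) = [L : K]` for a cyclic extension of local fields:

Let `σ` be an endomorphism of `A` with `σ ^ n = 1`, `n ≠ 0`.  Let `v : A →+ ℤ` be surjective and
`σ`-invariant with kernel `U`, and let `V ≤ U` be a `σ`-stable subgroup of finite index in `U`
on which the complex `σ - 1`, `N` is exact.  Then the Herbrand quotient of `A` is defined and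
equals `n`.

* `resEnd σ V hV` : the restriction of `σ` to a stable subgroup;
* `herbrand_eq_one_of_exact` : exactness of `(σ - 1, N)` implies `h0 = h1 = 1`;
* `herbrand_eq_of_valuation` : the theorem above.
-/

set_option autoImplicit false

namespace Fermat.Agent.S55.Herbrand

open AddSubgroup

variable {A : Type*} [AddCommGroup A]

/-- restriction of an endomorphism to a stable subgroup. -/
def resEnd (σ : AddMonoid.End A) (V : AddSubgroup A) (hV : ∀ x ∈ V, σ x ∈ V) :
    AddMonoid.End V :=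
  ((σ : A →+ A).comp V.subtype).codRestrict V (fun x => hV x x.2)

@[simp] lemma resEnd_coe (σ : AddMonoid.End A) (V : AddSubgroup A) (hV : ∀ x ∈ V, σ x ∈ V)
    (x : V) : ((resEnd σ V hV x : V) : A) = σ x := rfl

lemma subtype_resEnd (σ : AddMonoid.End A) (V : AddSubgroup A) (hV : ∀ x ∈ V, σ x ∈ V)
    (x : V) : V.subtype (resEnd σ V hV x) = σ (V.subtype x) := rfl

lemma resEnd_pow_eq_one {σ : AddMonoid.End A} {n : ℕ} (hσ : σ ^ n = 1) (V : AddSubgroup A)
    (hV : ∀ x ∈ V, σ x ∈ V) : resEnd σ V hV ^ n = 1 := by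
  ext x
  have := map_pow_of_comm (i := V.subtype) (σA := resEnd σ V hV) (σB := σ)
    (subtype_resEnd σ V hV) n x
  rw [hσ] at this
  exact this

lemma coe_delta_resEnd (σ : AddMonoid.End A) (V : AddSubgroup A) (hV : ∀ x ∈ V, σ x ∈ V)
    (x : V) : ((delta (resEnd σ V hV) x : V) : A) = delta σ x :=
  map_delta_of_comm (i := V.subtype) (subtype_resEnd σ V hV) x

lemma coe_normN_resEnd (σ : AddMonoid.End A) (V : AddSubgroup A) (hV : ∀ x ∈ V, σ x ∈ V)
    (n : ℕ) (x : V) : ((normN (resEnd σ V hV) n x : V) : A) = normN σ n x :=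
  map_normN_of_comm (i := V.subtype) (subtype_resEnd σ V hV) n x

/-- if every `σ`-fixed element is a norm then `h⁰ = 1`. -/
lemma h0_eq_one_of_exact {σ : AddMonoid.End A} {n : ℕ}
    (h : ∀ x, delta σ x = 0 → ∃ y, normN σ n y = x) : h0 σ n = 1 := by
  rw [h0_eq_relIndex, AddSubgroup.relIndex_eq_one]
  intro x hx
  obtain ⟨y, rfl⟩ := h x (AddMonoidHom.mem_ker.1 hx)
  exact ⟨y, rfl⟩

/-- if every element of norm zero is of the form `σ y - y` then `h¹ = 1`. -/
lemma h1_eq_one_of_exact {σ : AddMonoid.End A} {n : ℕ}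
    (h : ∀ x, normN σ n x = 0 → ∃ y, delta σ y = x) : h1 σ n = 1 := by
  rw [h1_eq_relIndex, AddSubgroup.relIndex_eq_one]
  intro x hx
  obtain ⟨y, rfl⟩ := h x (AddMonoidHom.mem_ker.1 hx)
  exact ⟨y, rfl⟩

lemma herbrandDefined_of_exact {σ : AddMonoid.End A} {n : ℕ}
    (h0' : ∀ x, delta σ x = 0 → ∃ y, normN σ n y = x)
    (h1' : ∀ x, normN σ n x = 0 → ∃ y, delta σ y = x) : HerbrandDefined σ n := by
  rw [herbrandDefined_iff, h0_eq_one_of_exact h0', h1_eq_one_of_exact h1']
  exact ⟨one_ne_zero, one_ne_zero⟩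

lemma herbrand_eq_one_of_exact {σ : AddMonoid.End A} {n : ℕ}
    (h0' : ∀ x, delta σ x = 0 → ∃ y, normN σ n y = x)
    (h1' : ∀ x, normN σ n x = 0 → ∃ y, delta σ y = x) : herbrand σ n = 1 := by
  rw [herbrand_eq_div, h0_eq_one_of_exact h0', h1_eq_one_of_exact h1']
  simp

section Valuation

variable {σ : AddMonoid.End A} {n : ℕ}
variable (hσ : σ ^ n = 1) (hn : n ≠ 0)
variable (v : A →+ ℤ) (hv : Function.Surjective v) (hvσ : ∀ a, v (σ a) = v a)
variable (V : AddSubgroup A) (hVU : V ≤ v.ker) (hfin : V.relIndex v.ker ≠ 0)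
variable (hV : ∀ x ∈ V, σ x ∈ V)
variable (hN : ∀ x ∈ V, σ x = x → ∃ y ∈ V, normN σ n y = x)
variable (hD : ∀ x ∈ V, normN σ n x = 0 → ∃ y ∈ V, σ y - y = x)

include hvσ in
lemma ker_stable_of_invariant : ∀ x ∈ v.ker, σ x ∈ v.ker := by
  intro x hx
  rw [AddMonoidHom.mem_ker] at hx ⊢
  rw [hvσ, hx]

include hN hD in
lemma herbrandDefined_good : HerbrandDefined (resEnd σ V hV) n := by
  refine herbrandDefined_of_exact ?_ ?_
  · intro x hx
    have hx' : σ (x : A) = x := by
      have := congrArg (fun z : V => (z : A)) hx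
      simp only [delta_apply, AddSubgroup.coe_zero] at this
      exact sub_eq_zero.1 this
    obtain ⟨y, hy, hyx⟩ := hN x x.2 hx'
    exact ⟨⟨y, hy⟩, Subtype.ext (by rw [coe_normN_resEnd]; exact hyx)⟩
  · intro x hx
    have hx' : normN σ n (x : A) = 0 := by
      have := congrArg (fun z : V => (z : A)) hx
      simpa only [coe_normN_resEnd, AddSubgroup.coe_zero] using this
    obtain ⟨y, hy, hyx⟩ := hD x x.2 hx'
    exact ⟨⟨y, hy⟩, Subtype.ext (by rw [coe_delta_resEnd, delta_apply]; exact hyx)⟩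

include hN hD in
lemma herbrand_good : herbrand (resEnd σ V hV) n = 1 := by
  refine herbrand_eq_one_of_exact ?_ ?_
  · intro x hx
    have hx' : σ (x : A) = x := by
      have := congrArg (fun z : V => (z : A)) hx
      simp only [delta_apply, AddSubgroup.coe_zero] at this
      exact sub_eq_zero.1 this
    obtain ⟨y, hy, hyx⟩ := hN x x.2 hx'
    exact ⟨⟨y, hy⟩, Subtype.ext (by rw [coe_normN_resEnd]; exact hyx)⟩
  · intro x hx
    have hx' : normN σ n (x : A) = 0 := by
      have := congrArg (fun z : V => (z : A)) hx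
      simpa only [coe_normN_resEnd, AddSubgroup.coe_zero] using this
    obtain ⟨y, hy, hyx⟩ := hD x x.2 hx'
    exact ⟨⟨y, hy⟩, Subtype.ext (by rw [coe_delta_resEnd, delta_apply]; exact hyx)⟩

include hσ hvσ hVU hfin hV hN hD in
/-- the Herbrand quotient of the "units" `U = ker v` is `1`. -/
lemma herbrand_ker_eq_one :
    HerbrandDefined (resEnd σ v.ker (ker_stable_of_invariant v hvσ)) n ∧
      herbrand (resEnd σ v.ker (ker_stable_of_invariant v hvσ)) n = 1 := by
  have hσU := resEnd_pow_eq_one hσ v.ker (ker_stable_of_invariant v hvσ)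
  have hi : Function.Injective (AddSubgroup.inclusion hVU) := AddSubgroup.inclusion_injective hVU
  have hrange : (AddSubgroup.inclusion hVU).range = V.addSubgroupOf v.ker := by
    ext x
    rw [AddSubgroup.mem_addSubgroupOf]
    constructor
    · rintro ⟨y, rfl⟩
      exact y.2
    · intro hx
      exact ⟨⟨x, hx⟩, rfl⟩
  have hfi : (AddSubgroup.inclusion hVU).range.FiniteIndex := by
    rw [hrange]
    exact ⟨hfin⟩
  have hcomm : ∀ a : V, AddSubgroup.inclusion hVU (resEnd σ V hV a) =
      resEnd σ v.ker (ker_stable_of_invariant v hvσ) (AddSubgroup.inclusion hVU a) :=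
    fun a => rfl
  constructor
  · exact (herbrandDefined_iff_of_finite_coker hσU hi hfi hcomm).1
      (herbrandDefined_good V hV hN hD)
  · rw [← herbrand_eq_of_finite_coker hσU hi hfi hcomm]
    exact herbrand_good V hV hN hD

include hσ hn hv hvσ hVU hfin hV hN hD in
/-- **Herbrand quotient via a valuation and a cohomologically trivial subgroup of the units:**
`h(A) = n`. -/
theorem herbrand_eq_of_valuation : HerbrandDefined σ n ∧ herbrand σ n = n := by
  obtain ⟨hUdef, hU1⟩ := herbrand_ker_eq_one hσ v hvσ V hVU hfin hV hN hD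
  have hi : Function.Injective v.ker.subtype := Subtype.val_injective
  have hex : v.ker = v.ker.subtype.range := by rw [AddSubgroup.range_subtype]
  have hiσ : ∀ a : v.ker, v.ker.subtype
      (resEnd σ v.ker (ker_stable_of_invariant v hvσ) a) = σ (v.ker.subtype a) := fun a => rfl
  have hpσ : ∀ b, v (σ b) = (1 : AddMonoid.End ℤ) (v b) := fun b => hvσ b
  constructor
  · exact herbrandDefined_mid hσ hi hv hex hiσ hpσ hUdef (herbrandDefined_int hn)
  · rw [herbrand_mul_of_exact hσ hi hv hex hiσ hpσ hUdef (herbrandDefined_int hn), hU1,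
      herbrand_int hn, one_mul]

include hσ hn hv hvσ hVU hfin hV hN hD in
/-- In the situation of `herbrand_eq_of_valuation`, `h⁰(A) = n · h¹(A)`. -/
theorem h0_eq_mul_h1_of_valuation : h0 σ n = n * h1 σ n := by
  obtain ⟨hdef, hq⟩ := herbrand_eq_of_valuation hσ hn v hv hvσ V hVU hfin hV hN hD
  rw [herbrand_eq_div] at hq
  have h1ne : (h1 σ n : ℚ) ≠ 0 := Nat.cast_ne_zero.2 ((herbrandDefined_iff σ n).1 hdef).2
  rw [div_eq_iff h1ne] at hq
  exact_mod_cast hq

end Valuation

end Fermat.Agent.S55.Herbrand
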