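import Fermat.Agent.S55.Herbrand.RepCyclic
import Mathlib.RepresentationTheory.Homological.GroupCohomology.Hilbert90

/-!
# Cyclic Galois extensions: `|H²(Gal(L/K), Lˣ)| = [Kˣ : N Lˣ]`

For a finite Galois extension `L/K` with cyclic Galois group (no other hypothesis on the fields):

* `card_H2_units_eq_norm_index` :
  `Nat.card (H2 (Rep.ofAlgebraAutOnUnits K L)) = (range (Units.map (Algebra.norm K))).index`;
* `h1_units_eq_one` : Hilbert 90 in Herbrand form, `h1 (Lˣ) = 1`;
* `herbrand_units_eq_norm_index` : `herbrand (Lˣ) = [Kˣ : N Lˣ]`;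
* `finite_H2_units_iff` : `H²` is finite iff the norm index is nonzero.
-/

set_option autoImplicit false

namespace Fermat.Agent.S55.Herbrand

open groupCohomology

variable (K L : Type) [Field K] [Field L] [Algebra K L]

/-- the inclusion `Kˣ → Lˣ`. -/
def unitsAlgMap : Kˣ →* Lˣ := Units.map (algebraMap K L : K →* L)

@[simp] lemma unitsAlgMap_coe (y : Kˣ) : ((unitsAlgMap K L y : Lˣ) : L) = algebraMap K L y := rfl

lemma unitsAlgMap_injective : Function.Injective (unitsAlgMap K L) := by
  intro a b h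
  apply Units.ext
  apply (algebraMap K L).injective
  have := congrArg (fun u : Lˣ => (u : L)) h
  simpa using this

/-- the norm `Lˣ → Kˣ`. -/
noncomputable def unitsNorm : Lˣ →* Kˣ := Units.map (Algebra.norm K : L →* K)

@[simp] lemma unitsNorm_coe (x : Lˣ) : ((unitsNorm K L x : Kˣ) : K) = Algebra.norm K (x : L) := rfl

/-- units of `L` as elements of the representation `Lˣ`. -/
def ofU (u : Lˣ) : (Rep.ofAlgebraAutOnUnits K L).V := Rep.toAdditive.symm (Additive.ofMul u)

/-- elements of the representation `Lˣ` as units of `L`. -/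
def toU (x : (Rep.ofAlgebraAutOnUnits K L).V) : Lˣ := Additive.toMul (Rep.toAdditive x)

lemma toU_ofU (u : Lˣ) : toU K L (ofU K L u) = u := rfl
lemma ofU_toU (x : (Rep.ofAlgebraAutOnUnits K L).V) : ofU K L (toU K L x) = x := rfl
lemma ofU_mul (u v : Lˣ) : ofU K L (u * v) = ofU K L u + ofU K L v := rfl
lemma ofU_one : ofU K L 1 = 0 := rfl
lemma toU_add (x y : (Rep.ofAlgebraAutOnUnits K L).V) :
    toU K L (x + y) = toU K L x * toU K L y := rfl
lemma toU_zero : toU K L 0 = 1 := rfl
lemma toU_sub (x y : (Rep.ofAlgebraAutOnUnits K L).V) :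
    toU K L (x - y) = toU K L x / toU K L y := rfl
lemma toU_rho (g : L ≃ₐ[K] L) (x : (Rep.ofAlgebraAutOnUnits K L).V) :
    toU K L ((Rep.ofAlgebraAutOnUnits K L).ρ g x) = g • toU K L x := rfl

lemma toU_injective : Function.Injective (toU K L) := fun _ _ h => h

lemma toU_sum {ι : Type*} (s : Finset ι) (f : ι → (Rep.ofAlgebraAutOnUnits K L).V) :
    toU K L (∑ i ∈ s, f i) = ∏ i ∈ s, toU K L (f i) := by
  classical
  induction s using Finset.induction_on with
  | empty => rw [Finset.sum_empty, Finset.prod_empty, toU_zero]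
  | insert a s ha ih => rw [Finset.sum_insert ha, Finset.prod_insert ha, toU_add, ih]

/-- the inclusion `Kˣ → Lˣ` as an additive map into the representation. -/
def unitsAlgMapAdd : Additive Kˣ →+ (Rep.ofAlgebraAutOnUnits K L).V where
  toFun y := ofU K L (unitsAlgMap K L (Additive.toMul y))
  map_zero' := by
    change ofU K L (unitsAlgMap K L 1) = 0
    rw [map_one, ofU_one]
  map_add' a b := by
    change ofU K L (unitsAlgMap K L (Additive.toMul a * Additive.toMul b)) = _
    rw [map_mul, ofU_mul]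

lemma toU_unitsAlgMapAdd (y : Additive Kˣ) :
    toU K L (unitsAlgMapAdd K L y) = unitsAlgMap K L (Additive.toMul y) := rfl

lemma unitsAlgMapAdd_injective : Function.Injective (unitsAlgMapAdd K L) := by
  intro a b h
  have := congrArg (toU K L) h
  rw [toU_unitsAlgMapAdd, toU_unitsAlgMapAdd] at this
  exact unitsAlgMap_injective K L this

variable [FiniteDimensional K L] [IsGalois K L]

lemma mem_range_unitsAlgMap_iff (x : Lˣ) :
    x ∈ (unitsAlgMap K L).range ↔ ∀ σ : L ≃ₐ[K] L, σ • x = x := by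
  constructor
  · rintro ⟨y, rfl⟩ σ
    apply Units.ext
    simp [AlgEquiv.smul_units_def]
  · intro h
    have hx : (x : L) ∈ Set.range (algebraMap K L) := by
      rw [IsGalois.mem_range_algebraMap_iff_fixed]
      intro σ
      have := congrArg (fun u : Lˣ => (u : L)) (h σ)
      simpa [AlgEquiv.smul_units_def] using this
    obtain ⟨y, hy⟩ := hx
    have hy0 : y ≠ 0 := by
      rintro rfl
      rw [map_zero] at hy
      exact x.ne_zero hy.symm
    exact ⟨Units.mk0 y hy0, Units.ext (by simpa using hy)⟩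

lemma prod_smul_units (x : Lˣ) :
    ∏ σ : L ≃ₐ[K] L, σ • x = unitsAlgMap K L (unitsNorm K L x) := by
  apply Units.ext
  rw [unitsAlgMap_coe, unitsNorm_coe, Algebra.norm_eq_prod_automorphisms, Units.coe_prod]
  exact Finset.prod_congr rfl fun σ _ => by simp [AlgEquiv.smul_units_def]

section Cyclic

variable {K L}
variable (g : L ≃ₐ[K] L) (hg : ∀ x, x ∈ Subgroup.zpowers g)

include hg

omit [FiniteDimensional K L] [IsGalois K L] in
lemma smul_eq_of_gen_smul_eq {u : Lˣ} (h : g • u = u) (σ : L ≃ₐ[K] L) : σ • u = u := by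
  obtain ⟨m, rfl⟩ := Subgroup.mem_zpowers_iff.1 (hg σ)
  have h2 : ∀ n : ℕ, g ^ n • u = u := by
    intro n
    induction n with
    | zero => simp
    | succ n ih => rw [pow_succ, mul_smul, h, ih]
  obtain ⟨n, rfl | rfl⟩ := m.eq_nat_or_neg
  · simpa using h2 n
  · rw [zpow_neg, zpow_natCast, inv_smul_eq_iff, h2 n]

lemma ker_delta_units :
    AddMonoidHom.ker (delta (gAct (Rep.ofAlgebraAutOnUnits K L) g)) =
      (unitsAlgMapAdd K L).range := by
  ext x
  rw [AddMonoidHom.mem_ker, delta_apply, sub_eq_zero, gAct_apply]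
  constructor
  · intro h
    have h1 : g • toU K L x = toU K L x := by
      rw [← toU_rho, h]
    obtain ⟨y, hy⟩ := (mem_range_unitsAlgMap_iff K L (toU K L x)).2
      (smul_eq_of_gen_smul_eq g hg h1)
    exact ⟨Additive.ofMul y, toU_injective K L (by rw [toU_unitsAlgMapAdd]; exact hy)⟩
  · rintro ⟨y, rfl⟩
    apply toU_injective K L
    rw [toU_rho, toU_unitsAlgMapAdd]
    exact (mem_range_unitsAlgMap_iff K L _).1 ⟨_, rfl⟩ g

lemma toU_normN_units (x : (Rep.ofAlgebraAutOnUnits K L).V) :
    toU K L (normN (gAct (Rep.ofAlgebraAutOnUnits K L) g) (Nat.card (L ≃ₐ[K] L)) x) =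
      unitsAlgMap K L (unitsNorm K L (toU K L x)) := by
  rw [normN_gAct_apply _ g hg, toU_sum, ← prod_smul_units]
  rfl

lemma range_normN_units :
    AddMonoidHom.range (normN (gAct (Rep.ofAlgebraAutOnUnits K L) g) (Nat.card (L ≃ₐ[K] L))) =
      (Subgroup.toAddSubgroup (unitsNorm K L).range).map (unitsAlgMapAdd K L) := by
  ext x
  constructor
  · rintro ⟨y, rfl⟩
    refine ⟨Additive.ofMul (unitsNorm K L (toU K L y)), ⟨toU K L y, rfl⟩, ?_⟩
    apply toU_injective K L
    rw [toU_normN_units g hg, toU_unitsAlgMapAdd]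
    rfl
  · rintro ⟨z, hz, rfl⟩
    have hz' : Additive.toMul z ∈ (unitsNorm K L).range := hz
    obtain ⟨y, hy⟩ := hz'
    refine ⟨ofU K L y, ?_⟩
    apply toU_injective K L
    rw [toU_normN_units g hg, toU_unitsAlgMapAdd, toU_ofU, hy]

/-- `h⁰(Lˣ) = [Kˣ : N Lˣ]`. -/
theorem h0_units_eq_norm_index :
    h0 (gAct (Rep.ofAlgebraAutOnUnits K L) g) (Nat.card (L ≃ₐ[K] L)) =
      (unitsNorm K L).range.index := by
  rw [h0_eq_relIndex, ker_delta_units g hg, range_normN_units g hg,
    AddMonoidHom.range_eq_map,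
    AddSubgroup.relIndex_map_map_of_injective _ _ (unitsAlgMapAdd_injective K L),
    AddSubgroup.relIndex_top_right]
  rfl

omit [IsGalois K L] in
/-- **Hilbert 90** in Herbrand form: `h¹(Lˣ) = 1`. -/
theorem h1_units_eq_one :
    h1 (gAct (Rep.ofAlgebraAutOnUnits K L) g) (Nat.card (L ≃ₐ[K] L)) = 1 := by
  rw [← card_H1_eq_h1 _ g hg]
  exact Nat.card_unique

/-- **`|H²(Gal(L/K), Lˣ)| = [Kˣ : N Lˣ]`** for a finite cyclic Galois extension. -/
theorem card_H2_units_eq_norm_index_of_gen :
    Nat.card (H2 (Rep.ofAlgebraAutOnUnits K L)) = (unitsNorm K L).range.index := by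
  rw [← h0_units_eq_norm_index g hg]
  exact card_H2_eq_h0 _ g hg

theorem herbrand_units_eq_norm_index :
    herbrand (gAct (Rep.ofAlgebraAutOnUnits K L) g) (Nat.card (L ≃ₐ[K] L)) =
      ((unitsNorm K L).range.index : ℚ) := by
  rw [herbrand_eq_div, h0_units_eq_norm_index g hg, h1_units_eq_one g hg]
  simp

end Cyclic

variable [IsCyclic (L ≃ₐ[K] L)]

/-- **`|H²(Gal(L/K), Lˣ)| = [Kˣ : N Lˣ]`** for a finite cyclic Galois extension `L/K`. -/
theorem card_H2_units_eq_norm_index :
    Nat.card (H2 (Rep.ofAlgebraAutOnUnits K L)) =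
      (MonoidHom.range (Units.map (Algebra.norm K : L →* K))).index := by
  obtain ⟨g, hg⟩ := IsCyclic.exists_generator (α := L ≃ₐ[K] L)
  exact card_H2_units_eq_norm_index_of_gen g hg

theorem finite_H2_units_iff :
    Finite (H2 (Rep.ofAlgebraAutOnUnits K L)) ↔
      (MonoidHom.range (Units.map (Algebra.norm K : L →* K))).index ≠ 0 := by
  rw [← card_H2_units_eq_norm_index]
  constructor
  · intro h
    exact Nat.card_pos.ne'
  · intro h
    exact (Nat.card_ne_zero.1 h).2

end Fermat.Agent.S55.Herbrand
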