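import Mathlib

/-!
# Herbrand quotient, abstract form (index calculus inside one group)

`B` is an additive commutative group with two endomorphisms `f g` such that `f ∘ g = 0` and
`g ∘ f = 0`.  We write `hIndex f g = [ker f : im g]` (a natural number, `0` if infinite).
For a subgroup `A ≤ B` stable under `f` and `g` we express the three numbers attached to
`A`, `B` and `B ⧸ A` as indices of subgroups of `B` and prove the exact-hexagon identity
purely by index calculus.
-/

set_option autoImplicit false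

namespace Fermat.Agent.S55.Herbrand

open AddSubgroup

variable {B : Type*} [AddCommGroup B]

/-- `[ker f : im g]` as a natural number (`0` when infinite). -/
noncomputable def hIndex (f g : B →+ B) : ℕ := g.range.relIndex f.ker

section Internal

variable (f g : B →+ B) (A : AddSubgroup B)

/-- internal version of `hIndex` for the restriction of `f, g` to `A`. -/
noncomputable def hIndexSub : ℕ := (A.map g).relIndex (A ⊓ f.ker)

/-- internal version of `hIndex` for the maps induced by `f, g` on `B ⧸ A`. -/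
noncomputable def hIndexQuot : ℕ := (g.range ⊔ A).relIndex (A.comap f)

/-- auxiliary index `[A ∩ im f : f A]` -/
noncomputable def auxAlpha : ℕ := (A.map f).relIndex (A ⊓ f.range)

/-- auxiliary index `[A ∩ ker f : A ∩ im g]` -/
noncomputable def auxBeta : ℕ := (A ⊓ g.range).relIndex (A ⊓ f.ker)

/-- auxiliary index `[ker f : (A ∩ ker f) + im g]` -/
noncomputable def auxGamma : ℕ := ((A ⊓ f.ker) ⊔ g.range).relIndex f.ker

variable {f g A}

lemma range_le_ker (hfg : ∀ b, f (g b) = 0) : g.range ≤ f.ker := by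
  rintro _ ⟨b, rfl⟩
  exact hfg b

lemma map_le_inf_range (hgA : ∀ a ∈ A, g a ∈ A) : A.map g ≤ A ⊓ g.range := by
  rintro _ ⟨a, ha, rfl⟩
  exact ⟨hgA a ha, ⟨a, rfl⟩⟩

lemma hIndexSub_eq (hfg : ∀ b, f (g b) = 0) (hgA : ∀ a ∈ A, g a ∈ A) :
    hIndexSub f g A = (A.map g).relIndex (A ⊓ g.range) * auxBeta f g A := by
  unfold hIndexSub auxBeta
  rw [relIndex_mul_relIndex _ _ _ (map_le_inf_range hgA)
    (inf_le_inf_left A (range_le_ker hfg))]

lemma hIndex_eq (hfg : ∀ b, f (g b) = 0) :
    hIndex f g = auxBeta f g A * auxGamma f g A := by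
  unfold hIndex auxBeta auxGamma
  have h1 : g.range ≤ (A ⊓ f.ker) ⊔ g.range := le_sup_right
  have h2 : (A ⊓ f.ker) ⊔ g.range ≤ f.ker := sup_le inf_le_right (range_le_ker hfg)
  rw [← relIndex_mul_relIndex _ _ _ h1 h2]
  congr 1
  rw [relIndex_sup_right, ← inf_relIndex_right]
  congr 1
  apply le_antisymm
  · exact le_inf (inf_le_right.trans inf_le_left) inf_le_left
  · exact le_inf inf_le_right (inf_le_inf_left A (range_le_ker hfg))

lemma sup_inf_ker_eq (hfg : ∀ b, f (g b) = 0) :
    (g.range ⊔ A) ⊓ f.ker = (A ⊓ f.ker) ⊔ g.range := by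
  apply le_antisymm
  · rintro x ⟨hx, hxk⟩
    obtain ⟨y, hy, z, hz, rfl⟩ := AddSubgroup.mem_sup.1 hx
    refine AddSubgroup.mem_sup.2 ⟨z, ⟨hz, ?_⟩, y, hy, add_comm _ _⟩
    have hyk : y ∈ f.ker := range_le_ker hfg hy
    have : z = (y + z) - y := by abel
    rw [this]
    exact f.ker.sub_mem hxk hyk
  · refine sup_le ?_ ?_
    · exact le_inf (inf_le_left.trans le_sup_right) inf_le_right
    · exact le_inf le_sup_left (range_le_ker hfg)

lemma hIndexQuot_eq (hfg : ∀ b, f (g b) = 0) (hfA : ∀ a ∈ A, f a ∈ A) :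
    hIndexQuot f g A = auxGamma f g A * auxAlpha f A := by
  unfold hIndexQuot auxGamma auxAlpha
  have h1 : g.range ⊔ A ≤ f.ker ⊔ A := sup_le_sup_right (range_le_ker hfg) A
  have h2 : f.ker ⊔ A ≤ A.comap f := by
    refine sup_le ?_ ?_
    · intro x hx
      rw [AddSubgroup.mem_comap, AddMonoidHom.mem_ker.1 hx]
      exact A.zero_mem
    · intro x hx
      exact hfA x hx
  rw [← relIndex_mul_relIndex _ _ _ h1 h2]
  congr 1
  · -- first factor
    have : f.ker ⊔ A = f.ker ⊔ (g.range ⊔ A) := by
      rw [← sup_assoc, sup_eq_left.2 (range_le_ker hfg)]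
    rw [this, relIndex_sup_right, ← inf_relIndex_right, sup_inf_ker_eq hfg]
  · -- second factor
    have hk : f.ker ⊔ A = (A.map f).comap f := by
      rw [AddSubgroup.comap_map_eq, sup_comm]
    rw [hk, relIndex_comap, AddSubgroup.map_comap_eq, inf_comm]

/-- The **hexagon identity** in index form (valid in `ℕ`, including the infinite cases). -/
theorem hexagon (hfg : ∀ b, f (g b) = 0) (hgf : ∀ b, g (f b) = 0)
    (hfA : ∀ a ∈ A, f a ∈ A) (hgA : ∀ a ∈ A, g a ∈ A) :
    hIndexSub f g A * hIndexQuot f g A * hIndex g f =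
      hIndexSub g f A * hIndexQuot g f A * hIndex f g := by
  rw [hIndexSub_eq hfg hgA, hIndexQuot_eq hfg hfA, hIndex_eq (A := A) hgf,
    hIndexSub_eq hgf hfA, hIndexQuot_eq hgf hgA, hIndex_eq (A := A) hfg]
  unfold auxAlpha
  ring

end Internal

end Fermat.Agent.S55.Herbrand
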