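import Fermat.Agent.S55.Herbrand.Assembly
import Fermat.Agent.S55.Herbrand.GaloisUnits

/-!
# Norm index of a cyclic extension from a cohomologically trivial subgroup of the units

`norm_index_eq_of_good_subgroup` : let `L/K` be a finite Galois extension of fields with cyclic
Galois group generated by `g`.  Assume there are

* a surjective `g`-invariant homomorphism `v : Lˣ →* Multiplicative ℤ` ("valuation"),
* a `g`-stable subgroup `V ≤ ker v` of finite index in `ker v` ("units"),
* such that every `g`-fixed element of `V` is the norm of an element of `V` and every element of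
  `V` of norm `1` is of the form `g y / y` with `y ∈ V`.

Then `[Kˣ : N Lˣ] = [L : K]` and `|H²(Gal(L/K), Lˣ)| = [L : K]`.

This is the algebraic skeleton of the local norm index theorem: for local fields take `v` the
normalised valuation of `L` and `V = 1 + π^c Λ` for a normal-basis lattice `Λ`.
-/

set_option autoImplicit false

namespace Fermat.Agent.S55.Herbrand

open groupCohomology

variable {K L : Type} [Field K] [Field L] [Algebra K L] [FiniteDimensional K L] [IsGalois K L]

section

variable (g : L ≃ₐ[K] L) (hg : ∀ x, x ∈ Subgroup.zpowers g)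
variable (v : Lˣ →* Multiplicative ℤ) (hv : Function.Surjective v)
  (hvg : ∀ x, v (g • x) = v x)
variable (V : Subgroup Lˣ) (hVU : V ≤ v.ker) (hfin : V.relIndex v.ker ≠ 0)
  (hV : ∀ x ∈ V, g • x ∈ V)
  (hN : ∀ x ∈ V, g • x = x → ∃ y ∈ V, ∏ σ : L ≃ₐ[K] L, σ • y = x)
  (hD : ∀ x ∈ V, ∏ σ : L ≃ₐ[K] L, σ • x = 1 → ∃ y ∈ V, g • y / y = x)

/-- the valuation as an additive map on the representation. -/
def valAdd : (Rep.ofAlgebraAutOnUnits K L).V →+ ℤ where
  toFun x := Multiplicative.toAdd (v (toU K L x))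
  map_zero' := by rw [toU_zero, map_one]; rfl
  map_add' a b := by rw [toU_add, map_mul]; rfl

/-- a subgroup of `Lˣ` as an additive subgroup of the representation. -/
def subAdd (V : Subgroup Lˣ) : AddSubgroup (Rep.ofAlgebraAutOnUnits K L).V where
  carrier := {x | toU K L x ∈ V}
  zero_mem' := V.one_mem
  add_mem' := fun ha hb => V.mul_mem ha hb
  neg_mem' := fun ha => V.inv_mem ha

omit [FiniteDimensional K L] [IsGalois K L] in
lemma mem_subAdd {V : Subgroup Lˣ} {x : (Rep.ofAlgebraAutOnUnits K L).V} :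
    x ∈ subAdd (K := K) V ↔ toU K L x ∈ V := Iff.rfl

omit [FiniteDimensional K L] [IsGalois K L] in
lemma ker_valAdd : (valAdd (K := K) v).ker = subAdd (K := K) v.ker := by
  ext x
  rw [AddMonoidHom.mem_ker, mem_subAdd, MonoidHom.mem_ker]
  rfl

omit [FiniteDimensional K L] [IsGalois K L] in
lemma relIndex_subAdd (V W : Subgroup Lˣ) :
    (subAdd (K := K) V).relIndex (subAdd (K := K) W) = V.relIndex W := rfl

include hg in
lemma toU_normN_eq_prod (x : (Rep.ofAlgebraAutOnUnits K L).V) :
    toU K L (normN (gAct (Rep.ofAlgebraAutOnUnits K L) g) (Nat.card (L ≃ₐ[K] L)) x) =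
      ∏ σ : L ≃ₐ[K] L, σ • toU K L x := by
  rw [toU_normN_units g hg, prod_smul_units]

include hg hv hvg hVU hfin hV hN hD in
/-- `h⁰(Lˣ) = [L : K] · h¹(Lˣ)` in the presence of a good subgroup. -/
theorem h0_units_eq_card_mul_h1 :
    h0 (gAct (Rep.ofAlgebraAutOnUnits K L) g) (Nat.card (L ≃ₐ[K] L)) =
      Nat.card (L ≃ₐ[K] L) * h1 (gAct (Rep.ofAlgebraAutOnUnits K L) g) (Nat.card (L ≃ₐ[K] L)) := by
  refine h0_eq_mul_h1_of_valuation (gAct_pow_card _ g) Nat.card_pos.ne' (valAdd (K := K) v)
    ?_ ?_ (subAdd (K := K) V) ?_ ?_ ?_ ?_ ?_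
  · intro z
    obtain ⟨u, hu⟩ := hv (Multiplicative.ofAdd z)
    refine ⟨ofU K L u, ?_⟩
    change Multiplicative.toAdd (v (toU K L (ofU K L u))) = z
    rw [toU_ofU, hu]
    rfl
  · intro a
    change Multiplicative.toAdd (v (toU K L _)) = Multiplicative.toAdd (v (toU K L a))
    rw [gAct_apply, toU_rho, hvg]
  · rw [ker_valAdd]
    intro x hx
    exact hVU hx
  · rw [ker_valAdd, relIndex_subAdd]
    exact hfin
  · intro x hx
    rw [mem_subAdd, gAct_apply, toU_rho]
    exact hV _ hx
  · intro x hx hfix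
    have hfix' : g • toU K L x = toU K L x := by
      rw [← toU_rho]
      exact congrArg (toU K L) hfix
    obtain ⟨y, hy, hyx⟩ := hN (toU K L x) hx hfix'
    refine ⟨ofU K L y, hy, toU_injective K L ?_⟩
    rw [toU_normN_eq_prod g hg, toU_ofU, hyx]
  · intro x hx hnorm
    have hnorm' : ∏ σ : L ≃ₐ[K] L, σ • toU K L x = 1 := by
      rw [← toU_normN_eq_prod g hg, hnorm, toU_zero]
    obtain ⟨y, hy, hyx⟩ := hD (toU K L x) hx hnorm'
    refine ⟨ofU K L y, hy, toU_injective K L ?_⟩
    rw [toU_sub, gAct_apply, toU_rho, toU_ofU, hyx]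

include hg hv hvg hVU hfin hV hN hD in
/-- **Norm index of a cyclic extension with a good subgroup of units**: `[Kˣ : N Lˣ] = |G|`. -/
theorem norm_index_eq_card_of_good_subgroup :
    (MonoidHom.range (Units.map (Algebra.norm K : L →* K))).index = Nat.card (L ≃ₐ[K] L) := by
  have h := h0_units_eq_card_mul_h1 g hg v hv hvg V hVU hfin hV hN hD
  rw [h1_units_eq_one g hg, mul_one, h0_units_eq_norm_index g hg] at h
  exact h

include hg hv hvg hVU hfin hV hN hD in
/-- **Norm index of a cyclic extension with a good subgroup of units**: `[Kˣ : N Lˣ] = [L : K]`. -/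
theorem norm_index_eq_finrank_of_good_subgroup :
    (MonoidHom.range (Units.map (Algebra.norm K : L →* K))).index = Module.finrank K L := by
  rw [norm_index_eq_card_of_good_subgroup g hg v hv hvg V hVU hfin hV hN hD,
    IsGalois.card_aut_eq_finrank]

include hg hv hvg hVU hfin hV hN hD in
/-- `|H²(Gal(L/K), Lˣ)| = [L : K]` for a cyclic extension with a good subgroup of units. -/
theorem card_H2_units_eq_finrank_of_good_subgroup :
    Finite (H2 (Rep.ofAlgebraAutOnUnits K L)) ∧
      Nat.card (H2 (Rep.ofAlgebraAutOnUnits K L)) = Module.finrank K L := by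
  have hc : Nat.card (H2 (Rep.ofAlgebraAutOnUnits K L)) = Module.finrank K L := by
    rw [card_H2_units_eq_norm_index_of_gen g hg]
    exact norm_index_eq_finrank_of_good_subgroup g hg v hv hvg V hVU hfin hV hN hD
  refine ⟨?_, hc⟩
  have hpos : Nat.card (H2 (Rep.ofAlgebraAutOnUnits K L)) ≠ 0 := by
    rw [hc]
    exact Module.finrank_pos.ne'
  exact (Nat.card_ne_zero.1 hpos).2

end

end Fermat.Agent.S55.Herbrand
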